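/-
S56lib / ClsFin / ClassReps  (helper4).

**Finiteness of the class group in idelic form, with an explicit finite invariant.**
For a number field `M` the map `idCls : Dev.Idele M → ClassGroup (𝓞 M)` (class of the divisor of an idele)
has the property: `idCls x = idCls x'` implies `x / x' ∈ M^× · ∏_q U_q(M)`.
(Adapted from `S55lib/SecondIneq/ClassGroupS` and `S55lib/Places/ClassTors`.)
-/
import Mathlib
import Fermat.Agent.S55lib.Places.ClassTors
import Fermat.Agent.S55lib.Dev.Idele

set_option autoImplicit false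

noncomputable section

namespace Fermat.Agent.S56lib.ClsFin

open NumberField IsDedekindDomain HeightOneSpectrum nonZeroDivisors Fermat.Agent.S55lib
  Fermat.Agent.S55lib.SecondIneq Fermat.Agent.S55lib.LocalH Fermat.Agent.S55lib.Places

section Abstract

variable {F : Type*} [Field F] [NumberField F] (D : CompletionData F)

open scoped Classical in
/-- the divisor of an idele -/
theorem exists_divisor (y : ∀ v, (D.Fv v)ˣ) (hy : y ∈ idele D.U) :
    ∃ I : (FractionalIdeal (𝓞 F)⁰ F)ˣ, ∀ v : HeightOneSpectrum (𝓞 F),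
      FractionalIdeal.count F v (I : FractionalIdeal (𝓞 F)⁰ F) = ordInt (D.𝒪v v) (y v) := by
  have hyfin : {v | ordInt (D.𝒪v v) (y v) ≠ 0}.Finite := by
    refine (mem_idele.mp hy).subset ?_
    intro v hv
    simp only [Set.mem_ofPred_eq] at hv ⊢
    rwa [CompletionData.U, mem_unitGroup_iff_ordInt]
  set exps : HeightOneSpectrum (𝓞 F) →₀ ℤ :=
    Finsupp.mk hyfin.toFinset (fun v => ordInt (D.𝒪v v) (y v)) (fun v => by simp) with hexps
  set Iy : FractionalIdeal (𝓞 F)⁰ F :=
    exps.prod fun v k => (v.asIdeal : FractionalIdeal (𝓞 F)⁰ F) ^ k with hIy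
  have hIy0 : Iy ≠ 0 := by
    rw [hIy, Finsupp.prod, Finset.prod_ne_zero_iff]
    intro v _
    exact zpow_ne_zero _ (FractionalIdeal.coeIdeal_ne_zero.mpr v.ne_bot)
  exact ⟨Units.mk0 Iy hIy0, fun v => FractionalIdeal.count_finsuppProd F v exps⟩

/-- ideles with divisors in the same ideal class differ by a principal idele and a unit idele -/
theorem exists_loc_of_mk_eq {y y' : ∀ v, (D.Fv v)ˣ}
    {I I' : (FractionalIdeal (𝓞 F)⁰ F)ˣ}
    (hI : ∀ v : HeightOneSpectrum (𝓞 F),
      FractionalIdeal.count F v (I : FractionalIdeal (𝓞 F)⁰ F) = ordInt (D.𝒪v v) (y v))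
    (hI' : ∀ v : HeightOneSpectrum (𝓞 F),
      FractionalIdeal.count F v (I' : FractionalIdeal (𝓞 F)⁰ F) = ordInt (D.𝒪v v) (y' v))
    (h : ClassGroup.mk F I = ClassGroup.mk F I') :
    ∃ c : Fˣ, ∀ v, y v / (y' v * D.loc v c) ∈ D.U v := by
  have hprinc : ClassGroup.mk F (I / I') = 1 := by
    rw [map_div, h, div_self']
  rw [ClassGroup.mk_eq_one_iff, FractionalIdeal.isPrincipal_iff] at hprinc
  obtain ⟨c, hc⟩ := hprinc
  have hc0 : c ≠ 0 := by
    rintro rfl
    rw [FractionalIdeal.spanSingleton_zero] at hc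
    exact (I / I').ne_zero hc
  have hmul : (I : FractionalIdeal (𝓞 F)⁰ F) =
      (I' : FractionalIdeal (𝓞 F)⁰ F) * FractionalIdeal.spanSingleton (𝓞 F)⁰ c := by
    rw [← hc]
    have : I = I' * (I / I') := by simp
    exact congrArg Units.val this
  have hcne : FractionalIdeal.spanSingleton (𝓞 F)⁰ c ≠ 0 := by
    rw [Ne, FractionalIdeal.spanSingleton_eq_zero_iff]; exact hc0
  set cu : Fˣ := Units.mk0 c hc0 with hcu
  refine ⟨cu, fun v => ?_⟩
  have h1 : ordInt (D.𝒪v v) (y v) = ordInt (D.𝒪v v) (y' v) +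
      FractionalIdeal.count F v (FractionalIdeal.spanSingleton (𝓞 F)⁰ c) := by
    rw [← hI v, ← hI' v, hmul, FractionalIdeal.count_mul F v I'.ne_zero hcne]
  have h2 := valuation_eq_exp_neg_count v c hc0
  have h3 := D.valuation_eq_exp_neg_ordInt v cu
  rw [hcu, Units.val_mk0, h2, WithZero.exp_inj, neg_inj] at h3
  rw [CompletionData.U, mem_unitGroup_iff_ordInt, div_eq_mul_inv, ordInt_mul, ordInt_inv',
    ordInt_mul, h1, h3]
  ring

end Abstract

section Intrinsic

variable (M : Type*) [Field M] [NumberField M]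

theorem toIdele_mem (x : Dev.Idele M) : toIdele M x.1 ∈ idele (completionData M).U :=
  (toIdele_mem_idele_iff x.1).mpr x.2

/-- **the ideal class of (the divisor of) an idele** -/
def idCls (x : Dev.Idele M) : ClassGroup (𝓞 M) :=
  ClassGroup.mk M (exists_divisor (completionData M) (toIdele M x.1) (toIdele_mem M x)).choose

variable {M}

/-- **ideles with the same ideal class differ by a principal idele and a unit idele** -/
theorem exists_diag_of_idCls_eq {x x' : Dev.Idele M} (h : idCls M x = idCls M x') :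
    ∃ a : Mˣ, ∀ q : Nat.Primes, x.1 q / (x'.1 q * diag (q : ℕ) M a) ∈ Uq (q : ℕ) M := by
  obtain ⟨c, hc⟩ := exists_loc_of_mk_eq (completionData M)
    (exists_divisor (completionData M) (toIdele M x.1) (toIdele_mem M x)).choose_spec
    (exists_divisor (completionData M) (toIdele M x'.1) (toIdele_mem M x')).choose_spec h
  refine ⟨c, fun q => ?_⟩
  have key : ∀ v, toIdele M (x.1 / (x'.1 * diagPi M c)) v =
      toIdele M x.1 v / (toIdele M x'.1 v * (completionData M).loc v c) := by
    intro v
    rw [map_div, map_mul, toIdele_diag]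
    rfl
  have h3 := (mem_Uq_iff_forall_toIdele (x.1 / (x'.1 * diagPi M c)) q).mpr ?_
  · exact h3
  · intro v _
    rw [key]
    exact hc v

end Intrinsic

end Fermat.Agent.S56lib.ClsFin
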