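/-
S56lib / ClsFin / Descent  (helper4).

**Descent of the divisor outside `S`.**  `U = Gal(ℚ̄/L)`, `F ⊇ L` a finite normal level unramified outside `S`,
`b ∈ F^×` such that `t(b)/b` is an `S`-unit for all `t ∈ U`.  Then there is an idele `y` of `L` with
`‖y_q(ι|_L)‖ = ‖ι(b)‖` for all `q ∉ S` and all `ι : ℚ̄ → ℚ̄_q`.
(`H¹(Gal(F/L), ∏_{q∉S} U_q(F)) = 0` + Galois descent of ideles, `S55lib/Dev`.)
-/
import Mathlib
import Fermat.Agent.S55lib.Iface.ClassInvariants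

set_option autoImplicit false
set_option linter.unusedSectionVars false
set_option linter.style.haveILetI false

noncomputable section

namespace Fermat.Agent.S56lib.ClsFin

open Fermat.Agent.S55lib IntermediateField

variable (S : Finset Nat.Primes)

theorem exists_idele_of_unit_cocycle (U : Subgroup GQ) (L : FieldQ) (hLU : L.fixingSubgroup = U)
    (F : FieldQ) [Normal ℚ F] (hF : F.IsUnramifiedOutside S) (hFU : F.fixingSubgroup ≤ U)
    (b : Qbar) (hb0 : b ≠ 0) (hbF : b ∈ F)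
    (hunit : ∀ t ∈ U, IsSUnit S (t b / b)) :
    ∃ y : Dev.Idele ↥L, ∀ q : Nat.Primes, q ∉ S → ∀ ι : Qbar →ₐ[ℚ] PadicAlgCl (q : ℕ),
      ‖((((y.1 q).1 (ι.comp L.val) : (PadicAlgCl (q : ℕ))ˣ)) : PadicAlgCl (q : ℕ))‖ = ‖ι b‖ := by
  classical
  haveI : FiniteDimensional ℚ ↥F := hF.1
  have hle : L ≤ F := by
    rw [← InfiniteGalois.fixedField_fixingSubgroup L, ← InfiniteGalois.fixedField_fixingSubgroup F,
      hLU]
    exact IntermediateField.fixedField_antitone hFU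
  haveI : FiniteDimensional ℚ ↥L :=
    FiniteDimensional.of_injective (IntermediateField.inclusion hle).toLinearMap
      (IntermediateField.inclusion_injective hle)
  letI alg : Algebra ↥L ↥F := (IntermediateField.inclusion hle).toRingHom.toAlgebra
  haveI tower : IsScalarTower ℚ ↥L ↥F := IsScalarTower.of_algebraMap_eq (fun x => by
    rw [eq_ratCast, eq_ratCast, map_ratCast])
  haveI : FiniteDimensional ↥L ↥F := FiniteDimensional.right ℚ ↥L ↥F
  haveI : IsGalois ℚ ↥F := ⟨⟩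
  haveI : IsGalois ↥L ↥F := IsGalois.tower_top_of_isGalois ℚ ↥L ↥F
  -- lifting the relative Galois group to `U`
  have hlift : ∀ γ : ↥F ≃ₐ[↥L] ↥F, ∃ t ∈ U, resL F t = autToQ ↥L γ := by
    intro γ
    obtain ⟨s, hs⟩ := resL_surjective F (autToQ ↥L γ)
    refine ⟨s, ?_, hs⟩
    rw [← hLU, IntermediateField.mem_fixingSubgroup_iff]
    intro x hx
    have h1 := resL_apply F s ⟨x, hle hx⟩
    rw [hs, autToQ_apply] at h1
    have h2 : γ (⟨x, hle hx⟩ : ↥F) = ⟨x, hle hx⟩ := γ.commutes ⟨x, hx⟩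
    rw [h2] at h1
    exact h1.symm
  -- the element of `F`
  set bF : (↥F)ˣ := Units.mk0 (⟨b, hbF⟩ : ↥F) (fun h => hb0 (congrArg Subtype.val h)) with hbFdef
  -- the idele `β`
  let β : Dev.Idele ↥F := ⟨fun q => if q ∈ S then 1 else diag (q : ℕ) ↥F bF, by
    refine (Dev.finite_setOf_diag_notMem_Uq bF).subset ?_
    intro q hq hcon
    apply hq
    by_cases hqS : q ∈ S
    · simp only [hqS, if_true]
      exact (Uq (q : ℕ) ↥F).one_mem
    · simp only [hqS, if_false]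
      exact hcon⟩
  have hβS : ∀ q : Nat.Primes, q ∈ S → β.1 q = 1 := fun q hq => if_pos hq
  have hβ : ∀ q : Nat.Primes, q ∉ S → β.1 q = diag (q : ℕ) ↥F bF := fun q hq => if_neg hq
  -- the cocycle `γ ↦ γ β / β` has values in the units outside `S`
  have hw : ∀ γ : ↥F ≃ₐ[↥L] ↥F, autToQ ↥L γ • β / β ∈ Dev.unitsOutside ↥F (S : Set Nat.Primes) := by
    intro γ
    obtain ⟨t, htU, ht⟩ := hlift γ
    refine ⟨fun q hq => ?_, fun q hq => ?_⟩
    · have hqS : q ∉ S := hq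
      rw [Dev.Idele.div_apply, Dev.Idele.smul_apply, hβ q hqS, diag_smul, ← map_div]
      intro ι
      rw [diag_apply]
      -- extend `ι` to `ℚ̄`
      obtain ⟨ι', hι'⟩ := Emb.res_surjective (q := (q : ℕ)) (M := Qbar) F.val ι
      have h1 := hunit t htU q hqS ι'
      have h2 : ((Units.map ((autToQ ↥L γ : ↥F ≃ₐ[ℚ] ↥F) : ↥F →* ↥F) bF / bF : (↥F)ˣ) : ↥F) =
          ⟨t b / b, div_mem (by
            have := (resL F t ⟨b, hbF⟩).2
            rwa [resL_apply] at this) hbF⟩ := by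
        apply Subtype.ext
        rw [Units.val_div_eq_div_val]
        show ((autToQ ↥L γ (⟨b, hbF⟩ : ↥F) : ↥F) : Qbar) / b = t b / b
        rw [← ht, resL_apply]
      rw [h2, ← hι']
      exact h1
    · have hqS : q ∈ S := hq
      rw [Dev.Idele.div_apply, Dev.Idele.smul_apply, hβS q hqS, smul_one, div_one]
  have hcoc : ∀ γ γ' : ↥F ≃ₐ[↥L] ↥F, autToQ ↥L (γ * γ') • β / β =
      autToQ ↥L γ • (autToQ ↥L γ' • β / β) * (autToQ ↥L γ • β / β) := by
    intro γ γ'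
    rw [map_mul, mul_smul, smul_div', div_mul_div_cancel]
  have hram : ∀ r : Nat.Primes, r ∉ (S : Set Nat.Primes) → ∀ ι : Emb (r : ℕ) ↥F,
      FirstIneq.UnramAt (r : ℕ) (localField (r : ℕ) ↥F ι) :=
    fun r hr ι => unramAt_localField S F hF r (by simpa using hr) ι
  obtain ⟨v, hv, hvw⟩ := unitsH1Trivial_of_unramAt ↥L (M := ↥F) (S : Set Nat.Primes) hram
    (fun γ => autToQ ↥L γ • β / β) hw hcoc
  -- `β / v` is invariant
  have hinv : ∀ γ : ↥F ≃ₐ[↥L] ↥F, autToQ ↥L γ • (β / v) = β / v := by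
    intro γ
    have h1 : autToQ ↥L γ • β = β * (autToQ ↥L γ • v / v) := by
      rw [← hvw γ, mul_div_cancel]
    have h2 : autToQ ↥L γ • v = v * (autToQ ↥L γ • v / v) := by
      rw [mul_div_cancel]
    rw [smul_div', h1]
    nth_rewrite 2 [h2]
    rw [mul_div_mul_right_eq_div]
  obtain ⟨y, hy⟩ := Dev.Idele.exists_incl_eq_of_invariant ↥L (β / v) hinv
  refine ⟨y, fun q hq ι => ?_⟩
  have h1 := congrArg (fun z : Dev.Idele ↥F => (((z.1 q).1 (ι.comp F.val) : (PadicAlgCl (q : ℕ))ˣ) :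
    PadicAlgCl (q : ℕ))) hy
  simp only [Dev.Idele.incl_apply, Jq.incl_apply, Dev.Idele.div_apply] at h1
  have h2 : Emb.res (IsScalarTower.toAlgHom ℚ ↥L ↥F) (ι.comp F.val) = ι.comp L.val := by
    ext x
    rfl
  rw [h2] at h1
  refine (congrArg norm h1).trans ?_
  rw [hβ q hq]
  have h3 : ‖(((v.1 q).1 (ι.comp F.val) : (PadicAlgCl (q : ℕ))ˣ) : PadicAlgCl (q : ℕ))‖ = 1 :=
    hv.1 q (by simpa using hq) (ι.comp F.val)
  have h4 : ((((diag (q : ℕ) ↥F bF / v.1 q : Jq (q : ℕ) ↥F).1 (ι.comp F.val) :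
      (PadicAlgCl (q : ℕ))ˣ)) : PadicAlgCl (q : ℕ)) =
      ι b / (((v.1 q).1 (ι.comp F.val) : (PadicAlgCl (q : ℕ))ˣ) : PadicAlgCl (q : ℕ)) := by
    show (((diag (q : ℕ) ↥F bF).1 (ι.comp F.val) / (v.1 q).1 (ι.comp F.val) :
      (PadicAlgCl (q : ℕ))ˣ) : PadicAlgCl (q : ℕ)) = _
    rw [Units.val_div_eq_div_val, diag_apply]
    rfl
  rw [h4, norm_div, h3, div_one]

end Fermat.Agent.S56lib.ClsFin
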