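/-
S56lib / ClsFin / Units  (helper4).

Elements of `E_S` as elements of `ℚ̄`, and **Hilbert 90** for smooth `1`-cocycles of an open subgroup
`U ≤ G_ℚ` (for the `G_S`-topology) with values in `E_S`: `ε(t) = t(b)/b` with `b ∈ ℚ_S^×`.
-/
import Mathlib
import Fermat.Agent.S55lib.GlobDual.JSCoind
import Fermat.Agent.S55lib.Cpx.LowDegree
import Fermat.Agent.S55lib.Cpx.H90

set_option autoImplicit false
set_option linter.unusedSectionVars false
set_option linter.style.haveILetI false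

noncomputable section

namespace Fermat.Agent.S56lib.ClsFin

open Fermat.Agent.S55lib

variable (S : Finset Nat.Primes)

/-- the element of `ℚ̄` underlying an element of `E_S` -/
def esVal (a : ESrep S) : Qbar := ((Additive.toMul a : ES S) : Qbarˣ)

variable {S}

lemma esVal_ρ (g : GQ) (a : ESrep S) : esVal S ((ESrep S).ρ g a) = g (esVal S a) := rfl

lemma esVal_add (a b : ESrep S) : esVal S (a + b) = esVal S a * esVal S b := rfl

lemma esVal_zero : esVal S (0 : ESrep S) = 1 := rfl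

lemma esVal_ne_zero (a : ESrep S) : esVal S a ≠ 0 := Units.ne_zero _

lemma esVal_injective : Function.Injective (esVal S) := fun _ _ h =>
  Additive.toMul.injective (Subtype.ext (Units.ext h))

lemma esVal_isSUnit (a : ESrep S) : IsSUnit S (esVal S a) := (Additive.toMul a : ES S).2.1

lemma esVal_mem_level (a : ESrep S) : ∃ F : FieldQ, F.IsUnramifiedOutside S ∧ esVal S a ∈ F :=
  (Additive.toMul a : ES S).2.2

/-- constructor of elements of `E_S` -/
def esMk (e : Qbar) (he : e ≠ 0) (h1 : IsSUnit S e)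
    (h2 : ∃ F : FieldQ, F.IsUnramifiedOutside S ∧ e ∈ F) : ESrep S :=
  Additive.ofMul (⟨Units.mk0 e he, h1, h2⟩ : ES S)

lemma esVal_esMk (e : Qbar) (he : e ≠ 0) (h1 : IsSUnit S e)
    (h2 : ∃ F : FieldQ, F.IsUnramifiedOutside S ∧ e ∈ F) : esVal S (esMk e he h1 h2) = e := rfl

variable (S)

/-- the value in `ℚ̄` of a smooth `1`-cochain of `U` with coefficients in `E_S` -/
def cochVal (U : Subgroup GQ)
    (x : (Csm ((basisS S).comap U.subtype) (Rep.res U.subtype (ESrep S))).X 1) (t : U) : Qbar :=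
  let a : Rep.res U.subtype (ESrep S) := Csm.fn₁ x t
  esVal S a

lemma cochVal_def (U : Subgroup GQ)
    (x : (Csm ((basisS S).comap U.subtype) (Rep.res U.subtype (ESrep S))).X 1) (t : U) :
    cochVal S U x t = ((Additive.toMul (Csm.fn₁ x t) : ES S) : Qbarˣ) := rfl

/-- **Hilbert 90** for smooth cocycles `U → E_S`. -/
theorem exists_h90 (U : Subgroup GQ) (hU : (basisS S).IsOpen U)
    (x : (Csm ((basisS S).comap U.subtype) (Rep.res U.subtype (ESrep S))).X 1)
    (hx : (Csm ((basisS S).comap U.subtype) (Rep.res U.subtype (ESrep S))).d 1 x = 0) :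
    ∃ F : FieldQ, F.IsUnramifiedOutside S ∧ Normal ℚ F ∧ F.fixingSubgroup ≤ U ∧
      ∃ b : Qbar, b ≠ 0 ∧ b ∈ F ∧ ∀ t : U, cochVal S U x t * b = (t : GQ) b := by
  classical
  -- the level
  obtain ⟨V, hV, hV1, -⟩ := Csm.isSm₁_fn₁ x
  obtain ⟨N, hN, rfl⟩ := hV
  obtain ⟨F₁, hF₁, hF₁n, rfl⟩ := hN
  obtain ⟨U₀, hU₀, hU₀U⟩ := hU
  obtain ⟨F₀, hF₀, hF₀n, rfl⟩ := hU₀
  have hF₀' : F₀.IsUnramifiedOutside S := hF₀
  have hF₁' : F₁.IsUnramifiedOutside S := hF₁
  set F : FieldQ := F₀ ⊔ F₁ with hF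
  have hFunr : F.IsUnramifiedOutside S := hF₀'.sup hF₁'
  haveI hFn : Normal ℚ F := @IntermediateField.normal_sup _ _ _ _ _ F₀ F₁ hF₀n hF₁n
  haveI : FiniteDimensional ℚ F := hFunr.1
  have hFU : F.fixingSubgroup ≤ U := fun s hs =>
    hU₀U (IntermediateField.fixingSubgroup_antitone le_sup_left hs)
  have hFinv : ∀ (g : U) (s : U), (s : GQ) ∈ F.fixingSubgroup →
      Csm.fn₁ x (g * s) = Csm.fn₁ x g := fun g s hs =>
    hV1 g s (IntermediateField.fixingSubgroup_antitone le_sup_right hs)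
  -- the cocycle
  have hcoc := (Csm.d_one_eq_zero_iff x).1 hx
  have hcoc' : ∀ g h : U, cochVal S U x (g * h) =
      (g : GQ) (cochVal S U x h) * cochVal S U x g := by
    intro g h
    rw [cochVal_def, hcoc g h]
    rfl
  let c : GQ → Qbar := fun s => if h : s ∈ U then cochVal S U x ⟨s, h⟩ else 1
  have hc_eq : ∀ (s : GQ) (h : s ∈ U), c s = cochVal S U x ⟨s, h⟩ := fun s h => dif_pos h
  haveI hfin : (F.fixingSubgroup.subgroupOf U).FiniteIndex := by
    haveI := fixingSubgroup_finiteIndex F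
    infer_instance
  obtain ⟨b, hb0, hb⟩ := hilbert90_dedekind (Ω := Qbar) (G := GQ) U F.fixingSubgroup
    F.toSubalgebra.toSubsemiring.toSubmonoid
    (fun u hu y hy => (IntermediateField.mem_fixingSubgroup_iff _ u).1 hu y hy)
    (fun s _ hs => (IntermediateField.mem_fixingSubgroup_iff _ s).2 fun y hy => hs y hy)
    c (fun s hs => by rw [hc_eq s hs]; exact esVal_ne_zero _)
    (fun s hs t ht => by
      rw [hc_eq s hs, hc_eq t ht, hc_eq (s * t) (U.mul_mem hs ht)]
      have := hcoc' ⟨s, hs⟩ ⟨t, ht⟩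
      rw [mul_comm]
      exact this)
    (fun s hs u hu huU => by
      rw [hc_eq s hs, hc_eq (s * u) (U.mul_mem hs huU)]
      have := hFinv ⟨s, hs⟩ ⟨u, huU⟩ hu
      rw [cochVal_def, cochVal_def]
      exact congrArg (fun a => (((Additive.toMul a : ES S) : Qbarˣ) : Qbar)) this)
  -- `c 1 = 1`
  have h1 : Csm.fn₁ x (1 : U) = 0 := by
    have := hcoc 1 1
    rw [mul_one, map_one] at this
    have h2 : Csm.fn₁ x (1 : U) = Csm.fn₁ x (1 : U) + Csm.fn₁ x (1 : U) := this
    have h3 : Csm.fn₁ x (1 : U) + 0 = Csm.fn₁ x (1 : U) + Csm.fn₁ x (1 : U) := by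
      rw [add_zero]; exact h2
    exact (add_left_cancel h3).symm
  -- `b ∈ F`
  have hbF : b ∈ F := by
    rw [← InfiniteGalois.fixedField_fixingSubgroup F, IntermediateField.mem_fixedField_iff]
    intro t ht
    have htU : t ∈ U := hFU ht
    have h2 := hb t htU
    have h3 : c t = 1 := by
      rw [hc_eq t htU]
      have := hFinv 1 ⟨t, htU⟩ ht
      rw [one_mul] at this
      rw [cochVal_def, this, h1]
      rfl
    rw [h3, one_mul] at h2
    exact h2
  -- conclusion with `b⁻¹`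
  refine ⟨F, hFunr, hFn, hFU, b⁻¹, inv_ne_zero hb0, inv_mem hbF, fun t => ?_⟩
  have h2 := hb t t.2
  rw [hc_eq t t.2] at h2
  have h3 : ((t : GQ) • b : Qbar) = (t : GQ) b := rfl
  rw [h3] at h2
  have htb0 : (t : GQ) b ≠ 0 := by
    rw [Ne, map_eq_zero]; exact hb0
  have h4 : cochVal S U x t = b / (t : GQ) b := by
    rw [eq_div_iff htb0]
    exact h2
  rw [map_inv₀, h4]
  field_simp

end Fermat.Agent.S56lib.ClsFin
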