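/-
S56lib / ClsFin / Main  (helper4).

**WP4: `H¹(U, E_S)` is finite** for every open subgroup `U` of `G_ℚ` (for the `G_S`-topology), in the V-form
of the hub: `Finite (Hsm ((basisS S).comap U.subtype) (Rep.res U.subtype (ESrep S)) 1)`.

Proof: with `L = ℚ̄^U`, a smooth cocycle `ε` is `t ↦ t(b)/b` with `b ∈ ℚ_S^×` (Hilbert 90, `ClsFin/Units`);
the divisor of `b` outside `S` descends to an idele `y` of `L` (`ClsFin/Descent`); the ideal class
`idCls y ∈ Cl(𝓞_L)` (`ClsFin/ClassReps`) determines the cohomology class of `ε`.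
-/
import Mathlib
import Fermat.Agent.S56lib.ClsFin.ClassReps
import Fermat.Agent.S56lib.ClsFin.Units
import Fermat.Agent.S56lib.ClsFin.Descent
import Fermat.Agent.S55lib.GlobDual.ESFacts

set_option autoImplicit false
set_option linter.unusedSectionVars false
set_option linter.style.haveILetI false

noncomputable section

namespace Fermat.Agent.S56lib.ClsFin

open Fermat.Agent.S55lib IntermediateField

variable (S : Finset Nat.Primes)

lemma esVal_neg (a : ESrep S) : esVal S (-a) = (esVal S a)⁻¹ := by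
  apply eq_inv_of_mul_eq_one_left
  rw [← esVal_add, neg_add_cancel]
  rfl

lemma esVal_sub (a b : ESrep S) : esVal S (a - b) = esVal S a / esVal S b := by
  rw [sub_eq_add_neg, esVal_add, esVal_neg, div_eq_mul_inv]

variable (U : Subgroup GQ) (L : FieldQ)

/-- the data attached to a cocycle: `ε(t) = t(b)/b`, `b ∈ ℚ_S^×`, and `y` is the divisor of `b` outside `S` -/
def Spec (x : (Csm ((basisS S).comap U.subtype) (Rep.res U.subtype (ESrep S))).X 1) (b : Qbar)
    (y : Dev.Idele ↥L) : Prop :=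
  b ≠ 0 ∧ (∃ F : FieldQ, F.IsUnramifiedOutside S ∧ b ∈ F) ∧
    (∀ t : U, cochVal S U x t * b = (t : GQ) b) ∧
    ∀ q : Nat.Primes, q ∉ S → ∀ ι : Qbar →ₐ[ℚ] PadicAlgCl (q : ℕ),
      ‖((((y.1 q).1 (ι.comp L.val) : (PadicAlgCl (q : ℕ))ˣ)) : PadicAlgCl (q : ℕ))‖ = ‖ι b‖

variable {S U L}

theorem exists_spec (hU : (basisS S).IsOpen U) (hLU : L.fixingSubgroup = U)
    (x : (Csm ((basisS S).comap U.subtype) (Rep.res U.subtype (ESrep S))).X 1)
    (hx : (Csm ((basisS S).comap U.subtype) (Rep.res U.subtype (ESrep S))).d 1 x = 0) :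
    ∃ (b : Qbar) (y : Dev.Idele ↥L), Spec S U L x b y := by
  obtain ⟨F, hF, hFn, hFU, b, hb0, hbF, hb⟩ := exists_h90 S U hU x hx
  haveI := hFn
  obtain ⟨y, hy⟩ := exists_idele_of_unit_cocycle S U L hLU F hF hFU b hb0 hbF (fun t ht => by
    have h1 := hb ⟨t, ht⟩
    have h2 : t b / b = cochVal S U x ⟨t, ht⟩ := by
      rw [div_eq_iff hb0]
      exact h1.symm
    rw [h2, cochVal_def]
    exact (Additive.toMul (Csm.fn₁ x ⟨t, ht⟩) : ES S).2.1)
  exact ⟨b, y, hb0, ⟨F, hF, hbF⟩, hb, hy⟩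

theorem eq_of_spec [NumberField ↥L] (hLU : L.fixingSubgroup = U)
    (hL : ∃ F₀ : FieldQ, F₀.IsUnramifiedOutside S ∧ L ≤ F₀)
    {x x' : (Csm ((basisS S).comap U.subtype) (Rep.res U.subtype (ESrep S))).X 1}
    (hx : (Csm ((basisS S).comap U.subtype) (Rep.res U.subtype (ESrep S))).d 1 x = 0)
    (hx' : (Csm ((basisS S).comap U.subtype) (Rep.res U.subtype (ESrep S))).d 1 x' = 0)
    {b b' : Qbar} {y y' : Dev.Idele ↥L} (h : Spec S U L x b y) (h' : Spec S U L x' b' y')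
    (hcls : idCls ↥L y = idCls ↥L y') :
    (Csm ((basisS S).comap U.subtype) (Rep.res U.subtype (ESrep S))).cl x hx =
      (Csm ((basisS S).comap U.subtype) (Rep.res U.subtype (ESrep S))).cl x' hx' := by
  obtain ⟨hb0, ⟨F, hF, hbF⟩, hb, hy⟩ := h
  obtain ⟨hb'0, ⟨F', hF', hbF'⟩, hb', hy'⟩ := h'
  obtain ⟨F₀, hF₀, hLF₀⟩ := hL
  obtain ⟨a, ha⟩ := exists_diag_of_idCls_eq hcls
  -- the global element
  set aQ : Qbar := ((a : ↥L) : Qbar) with haQ
  have haQ0 : aQ ≠ 0 := fun h0 => a.ne_zero (Subtype.ext h0)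
  set e₀ : Qbar := b / (b' * aQ) with he₀
  have he₀0 : e₀ ≠ 0 := div_ne_zero hb0 (mul_ne_zero hb'0 haQ0)
  have hSU : IsSUnit S e₀ := by
    intro q hq ι
    have h1 := ha q (ι.comp L.val)
    have h2 : ((((y.1 q / (y'.1 q * diag (q : ℕ) ↥L a) : Jq (q : ℕ) ↥L).1 (ι.comp L.val) :
        (PadicAlgCl (q : ℕ))ˣ)) : PadicAlgCl (q : ℕ)) =
        (((y.1 q).1 (ι.comp L.val) : (PadicAlgCl (q : ℕ))ˣ) : PadicAlgCl (q : ℕ)) /
          ((((y'.1 q).1 (ι.comp L.val) : (PadicAlgCl (q : ℕ))ˣ) : PadicAlgCl (q : ℕ)) * ι aQ) := by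
      show ((((y.1 q).1 (ι.comp L.val) / ((y'.1 q).1 (ι.comp L.val) *
        (diag (q : ℕ) ↥L a).1 (ι.comp L.val)) : (PadicAlgCl (q : ℕ))ˣ)) : PadicAlgCl (q : ℕ)) = _
      rw [Units.val_div_eq_div_val, Units.val_mul, diag_apply]
      rfl
    rw [h2, norm_div, norm_mul, hy q hq ι, hy' q hq ι] at h1
    rw [he₀, map_div₀, map_mul, norm_div, norm_mul]
    exact h1
  have hlev : ∃ F'' : FieldQ, F''.IsUnramifiedOutside S ∧ e₀ ∈ F'' := by
    refine ⟨F ⊔ F' ⊔ F₀, (hF.sup hF').sup hF₀, ?_⟩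
    refine div_mem ((le_sup_left.trans le_sup_left : F ≤ F ⊔ F' ⊔ F₀) hbF)
      (mul_mem ((le_sup_right.trans le_sup_left : F' ≤ F ⊔ F' ⊔ F₀) hbF')
        ((le_sup_right : F₀ ≤ F ⊔ F' ⊔ F₀) (hLF₀ (a : ↥L).2)))
  set e : ESrep S := esMk e₀ he₀0 hSU hlev with he
  -- the `0`-cochain
  have hsm : Csm.IsSm₀ ((basisS S).comap U.subtype) (Rep.res U.subtype (ESrep S)) e := by
    obtain ⟨N, hN, hfix⟩ := isSm_ESrep S e
    exact ⟨N.comap U.subtype, OpenBasis.comap_mem_comap _ _ hN, fun s hs => hfix _ hs⟩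
  rw [Cpx.cl_eq_cl_iff, Cpx.mem_B_succ]
  refine ⟨Csm.mk₀ (𝒰 := (basisS S).comap U.subtype) (A := Rep.res U.subtype (ESrep S)) e hsm, ?_⟩
  apply Csm.ext₁
  funext t
  rw [Csm.fn₁_d, Csm.fn₁_sub]
  have hta : (t : GQ) aQ = aQ := by
    have : (t : GQ) ∈ L.fixingSubgroup := by rw [hLU]; exact t.2
    exact (IntermediateField.mem_fixingSubgroup_iff _ _).1 this aQ (a : ↥L).2
  have htb0 : (t : GQ) b ≠ 0 := by rw [Ne, map_eq_zero]; exact hb0
  have htb'0 : (t : GQ) b' ≠ 0 := by rw [Ne, map_eq_zero]; exact hb'0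
  have h1 : cochVal S U x t = (t : GQ) b / b := by
    rw [eq_div_iff hb0]; exact hb t
  have h2 : cochVal S U x' t = (t : GQ) b' / b' := by
    rw [eq_div_iff hb'0]; exact hb' t
  apply esVal_injective
  have e1 : esVal S ((Rep.res U.subtype (ESrep S)).ρ t (Csm.fn₀ (Csm.mk₀ (𝒰 := (basisS S).comap U.subtype) (A := Rep.res U.subtype (ESrep S)) e hsm)) -
      Csm.fn₀ (Csm.mk₀ (𝒰 := (basisS S).comap U.subtype) (A := Rep.res U.subtype (ESrep S)) e hsm)) = (t : GQ) e₀ / e₀ := by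
    show esVal S ((ESrep S).ρ (t : GQ) e - e) = _
    rw [esVal_sub, esVal_ρ, he, esVal_esMk]
  have e2 : esVal S ((Csm.fn₁ x - Csm.fn₁ x') t) =
      cochVal S U x t / cochVal S U x' t := by
    show esVal S (Csm.fn₁ x t - Csm.fn₁ x' t) = _
    rw [esVal_sub]
    rfl
  refine e1.trans (Eq.trans ?_ e2.symm)
  rw [h1, h2, he₀, map_div₀, map_mul, hta]
  field_simp

variable (S U)

/-- **WP4.** `H¹(U, E_S)` is finite for `U` open. -/
theorem finite_H1_ES (hU : (basisS S).IsOpen U) :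
    Finite (Hsm ((basisS S).comap U.subtype) (Rep.res U.subtype (ESrep S)) 1) := by
  classical
  haveI : IsGalois ℚ Qbar := ⟨⟩
  -- the fixed field
  obtain ⟨U₀, hU₀, hU₀U⟩ := id hU
  obtain ⟨F₀, hF₀, hF₀n, rfl⟩ := hU₀
  have hF₀' : F₀.IsUnramifiedOutside S := hF₀
  haveI : FiniteDimensional ℚ F₀ := hF₀'.1
  have hF₀U : F₀.fixingSubgroup ≤ U := hU₀U
  have hUopen : IsOpen (U : Set GQ) :=
    Subgroup.isOpen_mono hF₀U (IntermediateField.fixingSubgroup_isOpen F₀)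
  let Uc : ClosedSubgroup GQ := ⟨U, (OpenSubgroup.isClosed ⟨U, hUopen⟩ : _)⟩
  set L : FieldQ := IntermediateField.fixedField U with hLdef
  have hLU : L.fixingSubgroup = U := InfiniteGalois.fixingSubgroup_fixedField Uc
  have hLF₀ : L ≤ F₀ := by
    have h1 : IntermediateField.fixedField F₀.fixingSubgroup = F₀ :=
      InfiniteGalois.fixedField_fixingSubgroup F₀
    rw [← h1]
    exact IntermediateField.fixedField_antitone hF₀U
  haveI : FiniteDimensional ℚ ↥L :=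
    FiniteDimensional.of_injective (IntermediateField.inclusion hLF₀).toLinearMap
      (IntermediateField.inclusion_injective hLF₀)
  haveI : NumberField ↥L := ⟨⟩
  -- representatives and their data
  have hrep : ∀ h : Hsm ((basisS S).comap U.subtype) (Rep.res U.subtype (ESrep S)) 1,
      ∃ (x : (Csm ((basisS S).comap U.subtype) (Rep.res U.subtype (ESrep S))).X 1)
        (hx : (Csm ((basisS S).comap U.subtype) (Rep.res U.subtype (ESrep S))).d 1 x = 0),
        (Csm ((basisS S).comap U.subtype) (Rep.res U.subtype (ESrep S))).cl x hx = h :=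
    fun h => Cpx.exists_rep _ h
  choose X hX hcl using hrep
  have hspec : ∀ h, ∃ (b : Qbar) (y : Dev.Idele ↥L), Spec S U L (X h) b y :=
    fun h => exists_spec hU hLU (X h) (hX h)
  choose B Y hBY using hspec
  refine Finite.of_injective (fun h => idCls ↥L (Y h)) ?_
  intro h h' heq
  rw [← hcl h, ← hcl h']
  exact eq_of_spec hLU ⟨F₀, hF₀', hLF₀⟩ (hX h) (hX h') (hBY h) (hBY h') heq

/-- **WP4** in the literal shape of `EulerSpec.ClassFinite S` (helper1). -/
theorem classFinite : ∀ U : Subgroup GQ, U.Normal → (basisS S).IsOpen U →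
    Finite (Hsm ((basisS S).comap U.subtype) (Rep.res U.subtype (ESrep S)) 1) :=
  fun U _ hU => finite_H1_ES S U hU

end Fermat.Agent.S56lib.ClsFin
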